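import Fermat.Agent.GaloisReps.Wiring
import Fermat.Agent.RedTorsion.Injective

/-!
# The Hecke–Galois models of `J₀(N)` exist for all levels and primes
-/

set_option autoImplicit false

noncomputable section

namespace Fermat.Agent.GaloisReps

theorem injectiveOnTorsion_all : ∀ (N : ℕ) [NeZero N], EichlerShimura.InjectiveOnTorsion N :=
  fun N _ => RedTorsion.injectiveOnTorsion N

theorem congruenceProperty (N p : ℕ) [NeZero N] [Fact p.Prime] : CongruenceProperty N p :=
  congruenceProperty_all injectiveOnTorsion_all N p

theorem nonempty_heckeGaloisModel (N p : ℕ) [NeZero N] [Fact p.Prime] :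
    Nonempty (HeckeGaloisModel N p) :=
  models_of_injective injectiveOnTorsion_all N p

/-- The model of `J₀(N)` at `p`. -/
def heckeGaloisModel (N p : ℕ) [NeZero N] [Fact p.Prime] : HeckeGaloisModel N p :=
  modelOfCongruence (congruenceProperty N p)

end Fermat.Agent.GaloisReps

end
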